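import Fermat.Agent.LT.T7.H589.StepTSpec
import Fermat.Agent.LT.H129.HeckeExists

/-!
# Row LT, tower T7, node T7.L2.1.H2a.A.1 (cut of helper589), LEAF ST.2 `SysC589` (registry 3002)

OFF-MAIN.  `sysC805 F : ST589.SysC589 F` VERBATIM vs `T7/H589/StepTSpec.lean` (sha256 f2cef127,
helper589@2f2879f43): at every finite place of a number field there are a Hecke coset system and
a scalar uniformiser.  Plug of the closed assets of helper129 (`H129/HeckeExists.lean`, master
bytes 283484f0): `exists_heckeCosetSystem129`, `exists_scalarUniformizer129`.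
-/

set_option autoImplicit false

open IsDedekindDomain NumberField

namespace Fermat.Agent.LT.T7.H805

/-- **LEAF ST.2 = SYS**, unconditional, every number field. -/
theorem sysC805 (F : Type) [Field F] [NumberField F] : ST589.SysC589 F := by
  intro v
  obtain ⟨H, hH⟩ := Fermat.Agent.LT.H129.exists_heckeCosetSystem129 v
  obtain ⟨z, hz⟩ := Fermat.Agent.LT.H129.exists_scalarUniformizer129 v
  exact ⟨H, z, hH, hz⟩

end Fermat.Agent.LT.T7.H805
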